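import Mathlib
import Fermat.Agent.LT.T7.H140.DownBasisQSpec
import Fermat.Agent.LT.H11.SC
import Fermat.Agent.LT.T7.H497.SubSeqCore

/-!
# Row LT, tower T7, leaf T7.L2Q.3.7.7 `SDQ140.SubSeqQC` (helper886, registry row 2352)

OFF-MAIN.  `subSeqQC886 (n) : SDQ140.SubSeqQC n`, VERBATIM against
`LT/T7/H140/DownBasisQSpec.lean` (helper140), UNCONDITIONAL, both `K_∞`-types `n : QWt`.

Proof (the one of `SD534.SubSeqC`; the type plays no role): `GL₂(𝔸_ℚ)` is second countable
(`H11.SC`, helper11), so its Borel `σ`-algebra is countably generated and `L²(F, μ)` is separable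
(`μ F < ∞`); the members of `S` are cusp functions, hence continuous and bounded, hence square
integrable on `F`; Gram--Schmidt on a dense sequence of the image of `S` in `L²(F, μ)`
(`H497.exists_orthoSeq_fn497`, helper497, Mathlib only, byte-identical copy).
-/

set_option autoImplicit false

open AutomorphicForm IsDedekindDomain NumberField MeasureTheory
open scoped ComplexConjugate

noncomputable section

namespace Fermat.Agent.LT.T7.H886

open Fermat.Agent.LT.H556 Fermat.Agent.LT.H556.A0 Fermat.Agent.LT.T7

attribute [local instance] Fermat.Agent.LT.T5.instMeasurableSpaceG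

/-- **T7.L2Q.3.7.7 `SubSeqQC`**: every linear subspace of the cusp functions over `ℚ` of type
`n` has a complete orthonormal sequence (zero vectors allowed). -/
theorem subSeqQC886 (n : L2Q.QWt) : SDQ140.SubSeqQC n := by
  intro μ F r 𝔫 _ _ hFr _ S hSV hS0 hSadd hSsmul
  have : SecondCountableTopology (G ℚ) :=
    Fermat.Agent.LT.H11.SC.secondCountableTopology_GL2_adeleRing_h11 ℚ
  have : BorelSpace (G ℚ) := ⟨rfl⟩
  have : MeasurableSpace.CountablyGenerated (G ℚ) := inferInstance
  have : IsFiniteMeasure (μ.restrict F) := ⟨by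
    rw [Measure.restrict_apply_univ]
    exact hFr.finite⟩
  let Sm : Submodule ℂ (G ℚ → ℂ) :=
    { carrier := {f | S f}
      add_mem' := fun {f f'} hf hf' => hSadd f f' hf hf'
      zero_mem' := hS0
      smul_mem' := fun a f hf => hSsmul a f hf }
  obtain ⟨p, hpS, hpo, hpn, hpp⟩ := H497.exists_orthoSeq_fn497 (μ.restrict F) Sm
    (fun f hf => (hSV f hf).cont.aestronglyMeasurable)
    (fun f hf => (hSV f hf).bdd)
  exact ⟨p, hpS, hpo, hpn, hpp⟩

end Fermat.Agent.LT.T7.H886

end
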